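import Mathlib
import Fermat.Agent.H37.FF.UnrLiftDefs
import Fermat.Agent.H37.FF.Echelon

/-!
# P-FF row 767 (FF-G2'-D): fixed-field descent for the function fields `laurentBaseChange _ F₀`

`fixedDescent : Fermat.Agent.H37.FF.FixedDescentStatement` : an element `f` of
`laurentBaseChange ℚ̄ F₀` whose `q`-expansion is fixed coefficientwise by a subgroup `H` of
`Gal(ℚ̄/ℚ)` is the image of an element of `laurentBaseChange K F₀`, `K = ℚ̄^H`.

Proof: `f = r / s` with `r, s` in the `ℚ̄`-span of `coeffEmb ℚ̄ '' F₀`; the space `W` of pairs of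
coefficient vectors `(a, b)` with `f * Σ b_x T_x = Σ a_x T_x` is stable under `H`, hence its
echelon basis (helper37's `exists_echelon`) has coordinates in `K`.
-/

set_option autoImplicit false
set_option linter.style.haveILetI false
set_option synthInstance.maxHeartbeats 400000
set_option maxHeartbeats 1000000

noncomputable section

open ModularCurve

namespace Fermat.Agent.H27.FF

section Generic

variable {K L : Type*} [Field K] [Field L]

/-- `coeffMap` of a constant -/
theorem coeffMap_algebraMap_hom (g : K →+* L) (c : K) :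
    coeffMap g (algebraMap K (LaurentSeries K) c) = algebraMap L (LaurentSeries L) (g c) := by
  rw [algebraMap_laurentSeries_eq_single, algebraMap_laurentSeries_eq_single, coeffMap_single]

/-- `coeffMap` is semilinear -/
theorem coeffMap_smul_hom (g : K →+* L) (c : K) (y : LaurentSeries K) :
    coeffMap g (c • y) = g c • coeffMap g y := by
  ext n
  simp

end Generic

section Span

variable (L : Type*) [Field L] [Algebra ℚ L] (F₀ : IntermediateField ℚ (LaurentSeries ℚ))

/-- every element of `laurentBaseChange L F₀` is a ratio of two `L`-linear combinations of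
elements of `coeffEmb L '' F₀` -/
theorem exists_ratio_of_mem {f : LaurentSeries L} (hf : f ∈ laurentBaseChange L F₀) :
    ∃ (n : ℕ) (a : Fin n → L) (ta : Fin n → LaurentSeries ℚ)
      (n' : ℕ) (b : Fin n' → L) (tb : Fin n' → LaurentSeries ℚ),
      (∀ i, ta i ∈ F₀) ∧ (∀ i, tb i ∈ F₀) ∧
      f = (∑ i, a i • coeffEmb L (ta i)) / (∑ i, b i • coeffEmb L (tb i)) := by
  obtain ⟨r, hr, s, hs, hrs⟩ := IntermediateField.mem_adjoin_iff_div.mp hf
  have hcl : ((Submonoid.closure (⇑(coeffEmb L) '' (F₀ : Set (LaurentSeries ℚ))) :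
      Submonoid (LaurentSeries L)) : Set (LaurentSeries L)) =
      ⇑(coeffEmb L) '' (F₀ : Set (LaurentSeries ℚ)) := by
    have h : (⇑(coeffEmb L) '' (F₀ : Set (LaurentSeries ℚ))) =
        ((F₀.toSubfield.toSubring.toSubmonoid.map
          ((coeffEmb L : LaurentSeries ℚ →+* LaurentSeries L) :
            LaurentSeries ℚ →* LaurentSeries L) :
            Submonoid (LaurentSeries L)) : Set (LaurentSeries L)) := rfl
    rw [h, Submonoid.closure_eq]
  have key : ∀ r ∈ Algebra.adjoin L (⇑(coeffEmb L) '' (F₀ : Set (LaurentSeries ℚ))),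
      ∃ (n : ℕ) (a : Fin n → L) (ta : Fin n → LaurentSeries ℚ),
        (∀ i, ta i ∈ F₀) ∧ r = ∑ i, a i • coeffEmb L (ta i) := by
    intro r hr
    rw [← Subalgebra.mem_toSubmodule, Algebra.adjoin_eq_span, hcl] at hr
    obtain ⟨n, fa, ga, hra⟩ :=
      (@Submodule.mem_span_set' L (LaurentSeries L) _ _ Algebra.toModule r _).mp hr
    have hga : ∀ i, ∃ t ∈ F₀, coeffEmb L t = (ga i : LaurentSeries L) := fun i => (ga i).2
    choose ta hta hta' using hga
    refine ⟨n, fa, ta, hta, ?_⟩
    rw [← hra]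
    refine Finset.sum_congr rfl fun i _ => ?_
    rw [hta' i, Algebra.smul_def, ← HahnSeries.C_mul_eq_smul, algebraMap_laurentSeries_eq_single]
    rfl
  obtain ⟨n, a, ta, hta, rfl⟩ := key r hr
  obtain ⟨n', b, tb, htb, rfl⟩ := key s hs
  exact ⟨n, a, ta, n', b, tb, hta, htb, hrs⟩

end Span

open Fermat.Agent.H72.FF in
/-- **P-FF 620-D**: fixed-field descent. -/
theorem fixedDescent : Fermat.Agent.H37.FF.FixedDescentStatement := by
  classical
  intro F₀ H f hf hfix
  -- step (a): `f = r / s`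
  obtain ⟨n, fa, ta, n', fb, tb, hta, htb, hrs⟩ := exists_ratio_of_mem Qb F₀ hf
  set r : LaurentSeries Qb := ∑ i, fa i • coeffEmb Qb (ta i) with hr
  set s : LaurentSeries Qb := ∑ i, fb i • coeffEmb Qb (tb i) with hs
  by_cases hs0 : s = 0
  · refine ⟨0, zero_mem _, ?_⟩
    rw [hrs, hs0, div_zero, map_zero]
  -- the combined family
  set t : Fin n ⊕ Fin n' → LaurentSeries ℚ := Sum.elim ta tb with ht
  have htF : ∀ x, t x ∈ F₀ := by
    rintro (i | i)
    · exact hta i
    · exact htb i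
  set T : Fin n ⊕ Fin n' → LaurentSeries Qb := fun x => coeffEmb Qb (t x) with hT
  set a₀ : Fin n ⊕ Fin n' → Qb := Sum.elim fa (fun _ => 0) with ha₀
  set b₀ : Fin n ⊕ Fin n' → Qb := Sum.elim (fun _ => 0) fb with hb₀
  have hnum₀ : ∑ x, a₀ x • T x = r := by
    rw [Fintype.sum_sum_type]
    simp only [ha₀, hT, ht, Sum.elim_inl, Sum.elim_inr, zero_smul, Finset.sum_const_zero,
      add_zero]
    rfl
  have hden₀ : ∑ x, b₀ x • T x = s := by
    rw [Fintype.sum_sum_type]
    simp only [hb₀, hT, ht, Sum.elim_inl, Sum.elim_inr, zero_smul, Finset.sum_const_zero,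
      zero_add]
    rfl
  -- the space `W`
  set num : ((Fin n ⊕ Fin n' → Qb) × (Fin n ⊕ Fin n' → Qb)) → LaurentSeries Qb :=
    fun w => ∑ x, w.1 x • T x with hnum
  set den : ((Fin n ⊕ Fin n' → Qb) × (Fin n ⊕ Fin n' → Qb)) → LaurentSeries Qb :=
    fun w => ∑ x, w.2 x • T x with hden
  have hnum_apply : ∀ w, num w = ∑ x, w.1 x • T x := fun w => rfl
  have hden_apply : ∀ w, den w = ∑ x, w.2 x • T x := fun w => rfl
  have hnum_add : ∀ w w', num (w + w') = num w + num w' := by
    intro w w'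
    simp only [hnum, Prod.fst_add, Pi.add_apply, add_smul, Finset.sum_add_distrib]
  have hden_add : ∀ w w', den (w + w') = den w + den w' := by
    intro w w'
    simp only [hden, Prod.snd_add, Pi.add_apply, add_smul, Finset.sum_add_distrib]
  have hnum_smul : ∀ (c : Qb) w, num (c • w) = HahnSeries.C c * num w := by
    intro c w
    simp only [hnum, Prod.smul_fst, Pi.smul_apply, smul_eq_mul, mul_smul, Finset.mul_sum,
      HahnSeries.C_mul_eq_smul]
  have hden_smul : ∀ (c : Qb) w, den (c • w) = HahnSeries.C c * den w := by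
    intro c w
    simp only [hden, Prod.smul_snd, Pi.smul_apply, smul_eq_mul, mul_smul, Finset.mul_sum,
      HahnSeries.C_mul_eq_smul]
  set W : Submodule Qb ((Fin n ⊕ Fin n' → Qb) × (Fin n ⊕ Fin n' → Qb)) :=
    { carrier := {w | f * den w = num w}
      add_mem' := by
        intro w w' hw hw'
        show f * den (w + w') = num (w + w')
        rw [hden_add, hnum_add, mul_add, hw, hw']
      zero_mem' := by
        show f * den 0 = num 0
        simp [hnum, hden]
      smul_mem' := by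
        intro c w hw
        show f * den (c • w) = num (c • w)
        rw [hden_smul, hnum_smul, mul_left_comm, hw] } with hW
  have hWmem : ∀ w, w ∈ W ↔ f * den w = num w := fun w => Iff.rfl
  have hw₀ : (a₀, b₀) ∈ W := by
    rw [hWmem, hnum_apply, hden_apply]
    show f * ∑ x, b₀ x • T x = ∑ x, a₀ x • T x
    rw [hnum₀, hden₀, hrs, div_mul_cancel₀ r hs0]
  -- the functionals
  set φ : (Fin n ⊕ Fin n') ⊕ (Fin n ⊕ Fin n') →
      ((Fin n ⊕ Fin n' → Qb) × (Fin n ⊕ Fin n' → Qb)) →ₗ[Qb] Qb := fun y =>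
    Sum.elim (fun x => (LinearMap.proj x) ∘ₗ
        (LinearMap.fst Qb (Fin n ⊕ Fin n' → Qb) (Fin n ⊕ Fin n' → Qb)))
      (fun x => (LinearMap.proj x) ∘ₗ
        (LinearMap.snd Qb (Fin n ⊕ Fin n' → Qb) (Fin n ⊕ Fin n' → Qb))) y with hφ
  have hφinj : ∀ w : (Fin n ⊕ Fin n' → Qb) × (Fin n ⊕ Fin n' → Qb),
      (∀ y, φ y w = 0) → w = 0 := by
    intro w hw
    refine Prod.ext (funext fun x => ?_) (funext fun x => ?_)
    · exact hw (Sum.inl x)
    · exact hw (Sum.inr x)
  obtain ⟨S, e, heW, hδ, huniq⟩ := Fermat.Agent.H37.FF.exists_echelon φ hφinj W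
  -- the action of `H`
  set act : (Qb ≃ₐ[ℚ] Qb) → ((Fin n ⊕ Fin n' → Qb) × (Fin n ⊕ Fin n' → Qb)) →
      ((Fin n ⊕ Fin n' → Qb) × (Fin n ⊕ Fin n' → Qb)) :=
    fun σ w => (fun x => σ (w.1 x), fun x => σ (w.2 x)) with hact
  have hTfix : ∀ (σ : Qb ≃ₐ[ℚ] Qb) (x : Fin n ⊕ Fin n'),
      coeffMap ((σ : Qb ≃ₐ[ℚ] Qb) : Qb →+* Qb) (T x) = T x :=
    fun σ x => coeffMap_coeffEmb σ (t x)
  have hactW : ∀ σ ∈ H, ∀ w ∈ W, act σ w ∈ W := by
    intro σ hσ w hw
    rw [hWmem] at hw ⊢
    have h1 := congrArg (coeffMap ((σ : Qb ≃ₐ[ℚ] Qb) : Qb →+* Qb)) hw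
    rw [map_mul, hfix σ hσ, hnum_apply, hden_apply, map_sum, map_sum] at h1
    rw [hnum_apply, hden_apply]
    have h2 : ∀ (c : Fin n ⊕ Fin n' → Qb),
        ∑ x, coeffMap ((σ : Qb ≃ₐ[ℚ] Qb) : Qb →+* Qb) (c x • T x) =
        ∑ x, (σ (c x)) • T x := by
      intro c
      refine Finset.sum_congr rfl fun x _ => ?_
      rw [coeffMap_smul_hom, hTfix]
      rfl
    rw [h2, h2] at h1
    exact h1
  have hefix : ∀ σ ∈ H, ∀ j ∈ S, act σ (e j) = e j := by
    intro σ hσ j hj
    have h1 : act σ (e j) - e j ∈ W := W.sub_mem (hactW σ hσ _ (heW j hj)) (heW j hj)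
    have h2 : ∀ i ∈ S, φ i (act σ (e j) - e j) = 0 := by
      intro i hi
      rw [map_sub]
      have h3 : φ i (act σ (e j)) = σ (φ i (e j)) := by
        rcases i with x | x
        · rfl
        · rfl
      rw [h3, hδ i hi j hj]
      split_ifs
      · rw [map_one, sub_self]
      · rw [map_zero, sub_self]
    exact sub_eq_zero.mp (huniq _ h1 h2)
  -- expansion of `(a₀, b₀)`
  have hexp := Fermat.Agent.H37.FF.echelon_expand φ W S e heW hδ huniq (a₀, b₀) hw₀
  have hexj : ∃ j ∈ S, den (e j) ≠ 0 := by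
    by_contra hcon
    push Not at hcon
    have hden_sum : ∀ (S' : Finset ((Fin n ⊕ Fin n') ⊕ (Fin n ⊕ Fin n')))
        (c : (Fin n ⊕ Fin n') ⊕ (Fin n ⊕ Fin n') → Qb),
        den (∑ j ∈ S', c j • e j) = ∑ j ∈ S', HahnSeries.C (c j) * den (e j) := by
      intro S' c
      induction S' using Finset.induction_on with
      | empty => simp [hden]
      | insert a S'' ha ih =>
        rw [Finset.sum_insert ha, Finset.sum_insert ha, hden_add, hden_smul, ih]
    have h1 : den (a₀, b₀) = 0 := by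
      rw [hexp, hden_sum]
      refine Finset.sum_eq_zero fun j hj => ?_
      rw [hcon j hj, mul_zero]
    rw [hden_apply] at h1
    exact hs0 (hden₀.symm.trans h1)
  obtain ⟨j, hjS, hjden⟩ := hexj
  have hjW := (hWmem _).mp (heW j hjS)
  -- the coordinates of `e j` lie in the fixed field
  have hK1 : ∀ x, (e j).1 x ∈ IntermediateField.fixedField H := by
    intro x
    rw [IntermediateField.mem_fixedField_iff]
    intro σ hσ
    exact congrFun (congrArg Prod.fst (hefix σ hσ j hjS)) x
  have hK2 : ∀ x, (e j).2 x ∈ IntermediateField.fixedField H := by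
    intro x
    rw [IntermediateField.mem_fixedField_iff]
    intro σ hσ
    exact congrFun (congrArg Prod.snd (hefix σ hσ j hjS)) x
  set K := IntermediateField.fixedField H with hK
  set a' : Fin n ⊕ Fin n' → ↥K := fun x => ⟨(e j).1 x, hK1 x⟩ with ha'
  set b' : Fin n ⊕ Fin n' → ↥K := fun x => ⟨(e j).2 x, hK2 x⟩ with hb'
  set numK : LaurentSeries ↥K := ∑ x, a' x • coeffEmb ↥K (t x) with hnumK
  set denK : LaurentSeries ↥K := ∑ x, b' x • coeffEmb ↥K (t x) with hdenK
  have hcomp : (algebraMap ↥K Qb).comp (algebraMap ℚ ↥K) = algebraMap ℚ Qb :=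
    (IsScalarTower.algebraMap_eq ℚ ↥K Qb).symm
  have hTK : ∀ x, coeffMap (algebraMap ↥K Qb) (coeffEmb ↥K (t x)) = T x := by
    intro x
    rw [coeffEmb, coeffMap_coeffMap, hcomp]
    rfl
  have hmapnum : coeffMap (algebraMap ↥K Qb) numK = num (e j) := by
    rw [hnumK, map_sum, hnum_apply]
    refine Finset.sum_congr rfl fun x _ => ?_
    rw [coeffMap_smul_hom, hTK]
    rfl
  have hmapden : coeffMap (algebraMap ↥K Qb) denK = den (e j) := by
    rw [hdenK, map_sum, hden_apply]
    refine Finset.sum_congr rfl fun x _ => ?_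
    rw [coeffMap_smul_hom, hTK]
    rfl
  have hmemK : ∀ c : Fin n ⊕ Fin n' → ↥K,
      ∑ x, c x • coeffEmb ↥K (t x) ∈ laurentBaseChange ↥K F₀ := by
    intro c
    refine sum_mem fun x _ => ?_
    rw [← HahnSeries.C_mul_eq_smul]
    refine mul_mem ?_ (coeffEmb_mem_laurentBaseChange ↥K (htF x))
    have h1 : (HahnSeries.C (c x) : LaurentSeries ↥K) =
        algebraMap ↥K (LaurentSeries ↥K) (c x) := by
      rw [algebraMap_laurentSeries_eq_single]
      rfl
    rw [h1]
    exact IntermediateField.algebraMap_mem _ _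
  refine ⟨numK / denK, div_mem (hmemK a') (hmemK b'), ?_⟩
  rw [map_div₀, hmapnum, hmapden, ← hjW, mul_div_assoc, div_self hjden, mul_one]

end Fermat.Agent.H27.FF
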